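import Fermat.Agent.S19.B.PullAbs
import Fermat.Agent.ES.AlgGal

/-!
# S19 / B : torsion points of `J₀(N)` have open stabilisers      key [S19/B-FOD]
-/

set_option autoImplicit false
set_option synthInstance.maxHeartbeats 400000

open HahnSeries ModularCurve AlgebraicCurve Fermat.Agent.S24 Fermat.Agent.S37

noncomputable section

namespace Fermat.Agent.S19

theorem exists_field_of_def' (N : ℕ) [NeZero N] (x : JZero N) (n : ℕ) (hn : 0 < n) (hx : n • x = 0) :
    ∃ E : IntermediateField ℚ Qb, FiniteDimensional ℚ E ∧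
      ∀ σ : GQ, (∀ a ∈ E, σ a = a) → σ • x = x := by
  obtain ⟨D, rfl⟩ := Pic0.mk_surjective x
  rw [B.nsmul_mk, B.mk_eq_zero_iff'] at hx
  obtain ⟨u, hu, huD⟩ := hx
  obtain ⟨L, hL, hLu⟩ := ES.Alg.exists_level (N := N) u
  refine ⟨L, hL, fun σ hσ => ?_⟩
  have h1 : arithmeticGalois (modularFunctionFieldFull N) σ • u = u := hLu σ hσ
  rw [galois_smul_pic0_def, SemilinearAut.pic0_smul_mk]
  congr 1
  apply Subtype.ext
  ext v
  have h2 := smul_of_ord (arithmeticGalois (modularFunctionFieldFull N) σ) huD v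
  rw [h1, ← huD v, SemilinearAut.divisor_smul_apply] at h2
  have h3 : ∀ w : Place Kb (FN N), ((n • D : Divisor.degZero (K := Kb) (F := FN N)) : Divisor Kb (FN N)) w
      = n * (D : Divisor Kb (FN N)) w := by
    intro w
    simp
  rw [h3, h3] at h2
  have hn' : (n : ℤ) ≠ 0 := by exact_mod_cast hn.ne'
  have h4 := mul_left_cancel₀ hn' h2
  rw [SemilinearAut.coe_degZeroSMulHom, SemilinearAut.divisor_smul_apply]
  exact h4

end Fermat.Agent.S19
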