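import Fermat.Agent.S19.B.Beta
import Fermat.Agent.S19.B.Fod
import Fermat.Agent.Lib.Frobenius

/-!
# S19, layer B : the second degeneracy map `β^* : J₀(N) → J₀(N r)` is injective on `ℓ`-power torsion (`ℓ ≠ r`); open stabilisers
Owner: helper21 (`S19/B-owner`).  Blueprint: briefing `S19-BLUEPRINT-B`.
Files: `B/PullAbs.lean` (abstract pull-back, done), `B/Beta.lean` (done), `B/Fod.lean` (done), `B/RootA.lean`, `B/RootB.lean`, `B/RootC.lean` (keys).
-/

set_option autoImplicit false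

noncomputable section

namespace Fermat.Agent.S19

open AlgebraicCurve ModularCurve Fermat.Agent.S37 Fermat.Agent.S27 Fermat.Agent.S24

theorem exists_beta (N : ℕ) [NeZero N] (r : ℕ) (hr : r.Prime) (hrN : ¬ r ∣ N) :
    ∃ b : JZero N →+ JZero (N * r), (∀ (σ : GQ) (x : JZero N), b (σ • x) = σ • b x) ∧
      ∀ ℓ : ℕ, ℓ.Prime → ℓ ≠ r → ∀ (k : ℕ) (x : JZero N), (ℓ ^ k) • x = 0 → b x = 0 → x = 0 :=
  exists_beta' N r hr hrN

/-- open stabilisers (torsion points) -/
theorem exists_field_of_def (N : ℕ) [NeZero N] (x : JZero N) (n : ℕ) (hn : 0 < n) (hx : n • x = 0) :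
    ∃ E : IntermediateField ℚ Qb, FiniteDimensional ℚ E ∧
      ∀ σ : GQ, (∀ a ∈ E, σ a = a) → σ • x = x :=
  exists_field_of_def' N x n hn hx

theorem exists_liesOver (ℓ : ℕ) (hℓ : ℓ.Prime) : ∃ A : ValuationSubring Qb, A.LiesOverPrime ℓ :=
  Fermat.Agent.Frob.exists_liesOverPrime hℓ

end Fermat.Agent.S19
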