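import Fermat.Agent.S37.Mod

/-!
# S19 / B / RootB : the degree of `β`      key `S19/B-ROOTB` (~60 lines)

`S37.exists_atkinLehner N r hr hrN : W (α f) = β f`; `S37.finrankAlong_alpha : finrankAlong Kb (heckeAlphaBar Kb N r) = r + 1`.
`W` is a ring isomorphism `FN (N r) ≃ FN (N r)` which is semilinear for (`algebraAlong α`, `algebraAlong β`, identity of `FN N`): an `FN N`-linear equivalence between the two module structures
(`LinearEquiv.finrank_eq` for `{ W.toAddEquiv with map_smul' := ... }`, `smul_def`: `f • x = α f * x`, `W (α f * x) = β f * W x`).  Compare `S37.finiteAlong_beta`.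
-/

set_option autoImplicit false

open ModularCurve AlgebraicCurve Fermat.Agent.S24 Fermat.Agent.S37

noncomputable section

namespace Fermat.Agent.S19

/-- abstract: finrank transported along a ring isomorphism -/
theorem finrank_eq_of_ringEquiv {F F' : Type} [Field F] [Field F'] (a b : Algebra F F')
    (W : F' ≃+* F') (h : ∀ f, W (@algebraMap F F' _ _ a f) = @algebraMap F F' _ _ b f) :
    @Module.finrank F F' _ _ a.toModule = @Module.finrank F F' _ _ b.toModule := by
  let e : @LinearEquiv F F _ _ (RingHom.id F) (RingHom.id F) _ _ F' F' _ _ a.toModule b.toModule :=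
    @LinearEquiv.mk F F _ _ (RingHom.id F) (RingHom.id F) _ _ F' F' _ _ a.toModule b.toModule
      (@LinearMap.mk F F _ _ (RingHom.id F) F' F' _ _ a.toModule b.toModule
        ⟨W, W.map_add⟩ (by
          intro f x
          change W (@HSMul.hSMul F F' F' (@instHSMul F F' a.toSMul) f x)
            = @HSMul.hSMul F F' F' (@instHSMul F F' b.toSMul) f (W x)
          rw [@Algebra.smul_def F F' _ _ a, @Algebra.smul_def F F' _ _ b, map_mul, h]))
      W.symm W.left_inv W.right_inv
  exact @LinearEquiv.finrank_eq F F' F' _ _ a.toModule _ b.toModule e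

/-- [S19/B-ROOTB] -/
theorem finrankAlong_beta (N r : ℕ) [NeZero N] [NeZero r] (hr : r.Prime) (hrN : ¬ r ∣ N) :
    finrankAlong Kb (heckeBetaBar Kb N r) = r + 1 := by
  obtain ⟨W, hW1, -⟩ := exists_atkinLehner N r hr hrN
  rw [← finrankAlong_alpha N r hr hrN]
  exact (finrank_eq_of_ringEquiv (algebraAlong (heckeAlphaBar Kb N r))
    (algebraAlong (heckeBetaBar Kb N r)) W.toRingEquiv (fun f => hW1 f)).symm

end Fermat.Agent.S19
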