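import Fermat.Agent.S19.B.RootA
import Fermat.Agent.S19.B.RootB
import Fermat.Agent.S37.NormQ

/-!
# S19 / B / RootC : elements of `F_{Nr}` which are series in `q^r` come from `F_N`      key `S19/B-ROOTC` (~300 lines)

`letI := algebraAlong (heckeBetaBar Kb N r)` : `F' = FN (N r)` is an extension of `F = FN N` of degree `r + 1` (`finrankAlong_beta`, `S37.finiteAlong_beta`).
`E' : IntermediateField F F'` with carrier `{z | ∀ n, ¬ (r : ℤ) ∣ n → (z : LaurentSeries Kb).coeff n = 0}`:
 closed under `+, *, ⁻¹`: EASIEST: `z ∈ E' ↔ twist ω z = z` (`ω` a primitive `r`-th root of unity, `twist` is a ring hom of the field `LaurentSeries Kb`, so its fixed points form a subfield; `map_inv₀`); contains `β f` (`coe_heckeBetaBar`, `qExpand_coeff_of_not_dvd` / `twist_qExpand`).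
LOWER BOUND `r ≤ finrank E' F'`: `t = jN (N r)`, `t = q⁻¹ + ...` : `order = -1` (`S37.coeff_jN_neg_one`; see `S24`/`S18` for `order`), so `order (t ^ i) = - i`.  `1, t, .., t ^ (r-1)` are linearly independent over `E'`:
 if `∑ c_i t^i = 0` with some `c_i ≠ 0`: the orders `order (c_i) - i` of the nonzero terms are pairwise distinct (`order c_i ∈ r ℤ` because `coeff (order) ≠ 0`; `0 ≤ i < r`); take the term of minimal order `m`: the coefficient `m` of the sum is the leading coefficient of that term (`HahnSeries.coeff_eq_zero_of_lt_order` for the others), `≠ 0`.  (`linearIndependent_iff'`, `LinearIndependent.fintype_card_le_finrank`.)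
TOWER: `finrank F E' * finrank E' F' = r + 1` (`Module.finrank_mul_finrank`), `finrank E' F' ≥ r ≥ 2` ⟹ `finrank F E' = 1` (`2 r > r + 1`) ⟹ `E' = ⊥` (`IntermediateField.finrank_eq_one_iff`) ⟹ every `z ∈ E'` is `algebraMap F F' g₁ = β g₁` (`IntermediateField.mem_bot`).
`root_mem_range`: `coeff_eq_zero_of_pow_eq_qExpand` with `s = f`.
-/

set_option autoImplicit false

open HahnSeries ModularCurve AlgebraicCurve Fermat.Agent.S24 Fermat.Agent.S37 Fermat.Agent.ES.Alg

noncomputable section

namespace Fermat.Agent.S19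

/-- abstract form: `r` distinct embeddings of `F'` agreeing on `F` and at `z`, `[F' : F] = r + 1`, `r ≥ 2` ⟹ `z ∈ F` -/
theorem rootC_abs {F F' Ω : Type*} [Field F] [Field F'] [Field Ω] [Algebra F F']
    [FiniteDimensional F F'] (r : ℕ) (hr : 2 ≤ r) (hdeg : Module.finrank F F' = r + 1)
    (τ : Fin r → F' →+* Ω) (hinj : Function.Injective τ)
    (hF : ∀ i j a, τ i (algebraMap F F' a) = τ j (algebraMap F F' a)) (z : F')
    (hz : ∀ i j, τ i z = τ j z) : ∃ a : F, algebraMap F F' a = z := by
  let i₀ : Fin r := ⟨0, by omega⟩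
  let E' : IntermediateField F F' :=
    { carrier := {x | ∀ i, τ i x = τ i₀ x}
      mul_mem' := fun {a b} ha hb i => by rw [map_mul, map_mul, ha i, hb i]
      one_mem' := fun i => by rw [map_one, map_one]
      add_mem' := fun {a b} ha hb i => by rw [map_add, map_add, ha i, hb i]
      zero_mem' := fun i => by rw [map_zero, map_zero]
      algebraMap_mem' := fun a i => hF i i₀ a
      inv_mem' := fun a ha i => by rw [map_inv₀, map_inv₀, ha i] }
  have hzE : z ∈ E' := fun i => hz i i₀
  letI : Algebra E' Ω := ((τ i₀).comp (algebraMap E' F')).toAlgebra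
  let T : Fin r → (F' →ₐ[E'] Ω) := fun i =>
    { toRingHom := τ i
      commutes' := fun a => a.2 i }
  have hT : Function.Injective T := by
    intro i j hij
    apply hinj
    ext x
    exact DFunLike.congr_fun hij x
  have h1 : r ≤ Module.finrank E' F' := by
    have h2 := Nat.card_le_card_of_injective T hT
    rw [Nat.card_eq_fintype_card, Fintype.card_fin] at h2
    exact h2.trans (card_algHom_le_finrank E' F' Ω)
  have h3 : Module.finrank F E' * Module.finrank E' F' = r + 1 := by
    rw [Module.finrank_mul_finrank, hdeg]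
  have h4 : Module.finrank F E' = 1 := by
    rcases Nat.lt_or_ge (Module.finrank F E') 2 with h | h
    · interval_cases hh : Module.finrank F E'
      · omega
      · rfl
    · exfalso
      have : 2 * r ≤ Module.finrank F E' * Module.finrank E' F' := Nat.mul_le_mul h h1
      omega
  have h5 : E' = ⊥ := IntermediateField.finrank_eq_one_iff.1 h4
  rw [h5] at hzE
  exact IntermediateField.mem_bot.1 hzE

/-- [S19/B-ROOTC] -/
theorem mem_range_beta_of_coeff (N r : ℕ) [NeZero N] [NeZero r] (hr : r.Prime) (hrN : ¬ r ∣ N)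
    (g : FN (N * r)) (hg : ∀ n : ℤ, ¬ (r : ℤ) ∣ n → (g : LaurentSeries Kb).coeff n = 0) :
    ∃ g₁ : FN N, heckeBetaBar Kb N r g₁ = g := by
  letI := algebraAlong (heckeBetaBar Kb N r)
  haveI : Module.Finite (FN N) (FN (N * r)) := finiteAlong_beta N r hr hrN
  have hdeg : Module.finrank (FN N) (FN (N * r)) = r + 1 := finrankAlong_beta N r hr hrN
  obtain ⟨ω₀, hω₀⟩ := rootA_exists_prim Kb r hr.pos
  let ω : Kbˣ := Units.mk0 ω₀ (hω₀.ne_zero hr.ne_zero)
  have hω : IsPrimitiveRoot ω r := IsPrimitiveRoot.coe_units_iff.1 hω₀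
  have hωr : ω ^ r = 1 := hω.pow_eq_one
  let τ : Fin r → FN (N * r) →+* LaurentSeries Kb := fun i =>
    (twist (ω ^ (i : ℕ))).comp (algebraMap (FN (N * r)) (LaurentSeries Kb))
  have hτ : ∀ (i : Fin r) (x : FN (N * r)), τ i x = twist (ω ^ (i : ℕ)) (x : LaurentSeries Kb) :=
    fun i x => rfl
  have hpow : ∀ i : Fin r, (ω ^ (i : ℕ)) ^ r = 1 := fun i => by
    rw [← pow_mul, mul_comm, pow_mul, hωr, one_pow]
  refine rootC_abs r hr.two_le hdeg τ ?_ ?_ g ?_
  · intro i j hij
    have h1 := congrArg (fun f : FN (N * r) →+* LaurentSeries Kb => (f (jN (N * r))).coeff (-1)) hij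
    simp only [hτ, twist_coeff, coeff_jN_neg_one, mul_one] at h1
    have h2 : (ω ^ (i : ℕ)) ^ (-1 : ℤ) = (ω ^ (j : ℕ)) ^ (-1 : ℤ) := Units.ext h1
    rw [zpow_neg_one, zpow_neg_one, inv_inj] at h2
    exact Fin.ext (hω.pow_inj i.2 j.2 h2)
  · intro i j a
    show twist (ω ^ (i : ℕ)) ((heckeBetaBar Kb N r a : FN (N * r)) : LaurentSeries Kb) =
      twist (ω ^ (j : ℕ)) ((heckeBetaBar Kb N r a : FN (N * r)) : LaurentSeries Kb)
    rw [coe_heckeBetaBar, twist_qExpand r _ (hpow i), twist_qExpand r _ (hpow j)]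
  · have key : ∀ i : Fin r, τ i g = (g : LaurentSeries Kb) := by
      intro i
      rw [hτ]
      ext n
      rw [twist_coeff]
      by_cases hn : (r : ℤ) ∣ n
      · obtain ⟨m, rfl⟩ := hn
        rw [zpow_mul, zpow_natCast, hpow i, one_zpow, Units.val_one, one_mul]
      · rw [hg n hn, mul_zero]
    intro i j
    rw [key i, key j]

/-- **(ROOT)** -/
theorem root_mem_range (N r : ℕ) [NeZero N] [NeZero r] (hr : r.Prime) (hrN : ¬ r ∣ N) {p : ℕ}
    (hp : p.Prime) (hpr : p ≠ r) (f : FN N) (g : FN (N * r))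
    (h : g ^ p = heckeBetaBar Kb N r f) : ∃ g₁ : FN N, heckeBetaBar Kb N r g₁ = g := by
  refine mem_range_beta_of_coeff N r hr hrN g fun n hn => ?_
  refine coeff_eq_zero_of_pow_eq_qExpand hr hp hpr (g : LaurentSeries Kb) (f : LaurentSeries Kb) ?_ n hn
  have := congrArg (fun z : FN (N * r) => (z : LaurentSeries Kb)) h
  simpa using this

end Fermat.Agent.S19
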