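import Fermat.Agent.S19.B.PullAbs
import Fermat.Agent.S19.B.RootC
import Fermat.Prelude.Thm_ModularCurve_coeffMap_qExpand

/-!
# S19 / B : the map `b = β^* : J₀(N) → J₀(N r)`      key [S19/B-BETA]
-/

set_option autoImplicit false
set_option synthInstance.maxHeartbeats 400000

open HahnSeries ModularCurve AlgebraicCurve Fermat.Agent.S24 Fermat.Agent.S37 Fermat.Agent.ES.Alg

noncomputable section

namespace Fermat.Agent.S19

theorem intertwines_beta (N r : ℕ) [NeZero N] [NeZero r] (τ : GQ) :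
    SemilinearAut.IntertwinesAlong ((heckeBetaBar Kb N r : FN N →ₐ[Kb] FN (N * r)) : FN N →+* FN (N * r))
      (arithmeticGalois (modularFunctionFieldFull N) τ)
      (arithmeticGalois (modularFunctionFieldFull (N * r)) τ) := by
  intro x
  apply Subtype.ext
  have h1 : (((heckeBetaBar Kb N r : FN N →ₐ[Kb] FN (N * r)) : FN N →+* FN (N * r)) x) =
      heckeBetaBar Kb N r x := rfl
  have h2 : (((heckeBetaBar Kb N r : FN N →ₐ[Kb] FN (N * r)) : FN N →+* FN (N * r))
      (arithmeticGalois (modularFunctionFieldFull N) τ • x)) =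
      heckeBetaBar Kb N r (arithmeticGalois (modularFunctionFieldFull N) τ • x) := rfl
  rw [h1, h2, coe_arithmeticGalois_smul, coe_heckeBetaBar, coe_heckeBetaBar,
    coe_arithmeticGalois_smul, coeffMap_qExpand]

theorem exists_beta' (N : ℕ) [NeZero N] (r : ℕ) (hr : r.Prime) (hrN : ¬ r ∣ N) :
    ∃ b : JZero N →+ JZero (N * r), (∀ (σ : GQ) (x : JZero N), b (σ • x) = σ • b x) ∧
      ∀ ℓ : ℕ, ℓ.Prime → ℓ ≠ r → ∀ (k : ℕ) (x : JZero N), (ℓ ^ k) • x = 0 → b x = 0 → x = 0 := by
  haveI : NeZero r := ⟨hr.ne_zero⟩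
  haveI : HasPrincipalDivisors Kb (FN (N * r)) := (isFF_FN (N * r)).hasPrincipalDivisors
  have hfin : FiniteAlong Kb (heckeBetaBar Kb N r) := finiteAlong_beta N r hr hrN
  have hφ : (heckeBetaBar Kb N r).toRingHom.IsIntegral := isIntegral_of_finiteAlong _ hfin
  have hFI : FundamentalIdentityAlong Kb (heckeBetaBar Kb N r) hφ :=
    (isFF_FN N).fundamentalIdentityAlong _ hfin _
  refine ⟨B.pull (heckeBetaBar Kb N r) hφ hFI, fun σ x => ?_, fun ℓ hℓ hℓr k x hx h0 => ?_⟩
  · exact B.pull_smul _ hφ hFI (intertwines_beta N r σ) x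
  · exact B.pull_inj_pow _ hφ hFI (isFF_FN (N * r)) hℓ.pos
      (fun g f h => root_mem_range N r hr hrN hℓ hℓr f g h) k x hx h0

end Fermat.Agent.S19
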