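import Fermat.Agent.S19.Defs
import Fermat.Agent.S37.MainAbs

/-!
# S19 / B : the pull-back `φ^* : Pic0 F → Pic0 F'` along a finite map; equivariance; injectivity on `p`-torsion
when `p`-th roots of elements of `φ F` lying in `F'` lie in `φ F`.      key [S19/B-PULL]
-/

set_option autoImplicit false

noncomputable section

namespace Fermat.Agent.S19.B

open AlgebraicCurve Fermat.Agent.S37 Fermat.Agent.S27

section
variable {K F : Type*} [Field K] [Field F] [Algebra K F]

theorem mk_eq_zero_iff' (D : Divisor.degZero (K := K) (F := F)) :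
    Pic0.mk D = 0 ↔ (D : Divisor K F).IsPrincipal := by
  unfold Pic0.mk
  rw [QuotientAddGroup.eq_zero_iff, AddSubgroup.mem_addSubgroupOf]
  rfl

theorem nsmul_mk (n : ℕ) (D : Divisor.degZero (K := K) (F := F)) :
    n • Pic0.mk D = Pic0.mk (n • D) := rfl

end

variable {K F F' : Type*} [Field K] [Field F] [Field F'] [Algebra K F] [Algebra K F']
  [HasPrincipalDivisors K F']
  (φ : F →ₐ[K] F') (hφ : φ.toRingHom.IsIntegral) (hFI : FundamentalIdentityAlong K φ hφ)

def pullDeg : Divisor.degZero (K := K) (F := F) →+ Divisor.degZero (K := K) (F := F') :=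
  ((Divisor.pullbackAlong φ hφ).domRestrict (Divisor.degZero (K := K) (F := F))).codRestrict _
    (fun D => Divisor.pullbackAlong_mem_degZero φ hφ hFI D.2)

@[simp]
theorem coe_pullDeg (D : Divisor.degZero (K := K) (F := F)) :
    (pullDeg φ hφ hFI D : Divisor K F') = Divisor.pullbackAlong φ hφ (D : Divisor K F) := rfl

def pull : Pic0 K F →+ Pic0 K F' :=
  QuotientAddGroup.map _ _ (pullDeg φ hφ hFI) (by
    rintro ⟨D, hD0⟩ hD
    simp only [AddSubgroup.mem_addSubgroupOf] at hD ⊢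
    exact Divisor.isPrincipal_pullbackAlong φ hφ hD)

theorem pull_mk (D : Divisor.degZero (K := K) (F := F)) :
    pull φ hφ hFI (Pic0.mk D) = Pic0.mk (pullDeg φ hφ hFI D) := rfl

theorem pull_smul {g : SemilinearAut K F} {g' : SemilinearAut K F'}
    (h : SemilinearAut.IntertwinesAlong (φ : F →+* F') g g') (x : Pic0 K F) :
    pull φ hφ hFI (g • x) = g' • pull φ hφ hFI x := by
  obtain ⟨D, rfl⟩ := Pic0.mk_surjective x
  rw [SemilinearAut.pic0_smul_mk, pull_mk, pull_mk, SemilinearAut.pic0_smul_mk]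
  congr 1
  apply Subtype.ext
  exact pullbackAlong_smul φ hφ h D.1

theorem pull_inj_prime [IsAlgClosed K] [CharZero K] (hF' : IsFF K F') {p : ℕ} (hp : 0 < p)
    (hroot : ∀ (g : F') (f : F), g ^ p = φ f → ∃ g₁ : F, φ g₁ = g)
    (x : Pic0 K F) (hx : p • x = 0) (h0 : pull φ hφ hFI x = 0) : x = 0 := by
  obtain ⟨D, rfl⟩ := Pic0.mk_surjective x
  rw [nsmul_mk, mk_eq_zero_iff'] at hx
  rw [pull_mk, mk_eq_zero_iff'] at h0
  obtain ⟨f, hf, hfD⟩ := hx
  obtain ⟨g, hg, hgD⟩ := h0
  have hφf : φ f ≠ 0 := by simpa using hf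
  -- `g ^ p / φ f` has no zeros and no poles
  have hord : ∀ w : Place K F', w.ord (g ^ p / φ f) = 0 := by
    intro w
    rw [div_eq_mul_inv, w.ord_mul (pow_ne_zero _ hg) (inv_ne_zero hφf), w.ord_inv,
      ← pullbackAlong_of_ord φ hφ hfD w]
    have h1 : w.ord (g ^ p) = p * w.ord g := by
      have := w.ord_zpow g (p : ℤ)
      rwa [zpow_natCast] at this
    rw [h1, ← hgD w]
    simp
  obtain ⟨c, hc⟩ := S27.exists_eq_algebraMap hF' (y := g ^ p / φ f)
    (fun P => (S27.reg_iff).2 (hord P).ge)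
  have hc0 : c ≠ 0 := by
    rintro rfl
    rw [map_zero] at hc
    exact div_ne_zero (pow_ne_zero _ hg) hφf hc
  obtain ⟨d, hd⟩ := IsAlgClosed.exists_pow_nat_eq c hp
  have hd0 : d ≠ 0 := by
    rintro rfl
    rw [zero_pow hp.ne'] at hd
    exact hc0 hd.symm
  have hd0' : algebraMap K F' d ≠ 0 := by simpa using hd0
  have h2 : (g / algebraMap K F' d) ^ p = φ f := by
    rw [div_pow, ← map_pow, hd, ← hc]
    field_simp
  obtain ⟨g₁, hg₁⟩ := hroot _ _ h2
  have h3 : g₁ ^ p = f := by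
    apply φ.toRingHom.injective
    show φ (g₁ ^ p) = φ f
    rw [map_pow, hg₁, h2]
  have hg₁0 : g₁ ≠ 0 := by
    rintro rfl
    rw [zero_pow hp.ne'] at h3
    exact hf h3.symm
  rw [mk_eq_zero_iff']
  refine ⟨g₁, hg₁0, fun v => ?_⟩
  have h4 := hfD v
  rw [← h3] at h4
  have h5 : v.ord (g₁ ^ p) = p * v.ord g₁ := by
    have := v.ord_zpow g₁ (p : ℤ)
    rwa [zpow_natCast] at this
  rw [h5] at h4
  have h6 : ((p • D : Divisor.degZero (K := K) (F := F)) : Divisor K F) v = p * (D : Divisor K F) v := by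
    simp
  rw [h6] at h4
  have hp' : (p : ℤ) ≠ 0 := by exact_mod_cast hp.ne'
  exact mul_left_cancel₀ hp' h4

theorem pull_inj_pow [IsAlgClosed K] [CharZero K] (hF' : IsFF K F') {p : ℕ} (hp : 0 < p)
    (hroot : ∀ (g : F') (f : F), g ^ p = φ f → ∃ g₁ : F, φ g₁ = g) (k : ℕ)
    (x : Pic0 K F) (hx : (p ^ k) • x = 0) (h0 : pull φ hφ hFI x = 0) : x = 0 := by
  induction k generalizing x with
  | zero => simpa using hx
  | succ k ih =>
    have h1 : p • x = 0 := by
      apply ih
      · rw [smul_smul, ← pow_succ]; exact hx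
      · rw [map_nsmul, h0, smul_zero]
    exact pull_inj_prime φ hφ hFI hF' hp hroot x h1 h0

end Fermat.Agent.S19.B
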