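import Fermat.Agent.ES.AlgSeries

/-!
# S19 / B / RootA : a `p`-th root of a series in `q^r` is a series in `q^r` (`p ≠ r` primes)      key `S19/B-ROOTA` (~150 lines)

`K` algebraically closed of characteristic `0`.  `ω : Kˣ` a primitive `r`-th root of unity (`IsAlgClosed.exists_... ` / `HasEnoughRootsOfUnity`, or a root of `cyclotomic r K`; only needed: `ω ^ r = 1`, and `ω ^ n = 1 → r ∣ n` for `n : ℤ`).
`T = ES.Alg.twist ω` (ring hom of `LaurentSeries K`, `twist_coeff : (T x).coeff n = ω ^ n * x.coeff n`, `twist_qExpand : T (qExpand r s) = qExpand r s`).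
`g = 0` is trivial.  Let `g ≠ 0`.  `(T g) ^ p = T (g ^ p) = g ^ p`.  Put `z = T g / g` in the field `LaurentSeries K`: `z ^ p = 1`.
Let `a = g.order`, `c = g.coeff a ≠ 0` (`HahnSeries.coeff_order_ne_zero` / `leadingCoeff`).  CLAIM `T g = C (ω ^ a) * g`:
 `X ^ p - 1 = ∏_{ζ ∈ μ_p(K)} (X - ζ)` over `K` (`X_pow_sub_one_eq_prod` with a primitive `p`-th root of unity), map it to `LaurentSeries K` and evaluate at `z`: `z = C ζ` for some `ζ : K` with `ζ ^ p = 1`.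
 So `T g = C ζ * g`; coefficient `a`: `ω ^ a * c = ζ * c`, `ζ = ω ^ a`.
`ζ ^ p = 1` and `ζ ^ r = (ω ^ r) ^ a = 1`, `p`, `r` coprime (`Nat.Coprime`, Bezout / `pow_gcd_eq_one`): `ζ = 1`.  So `T g = g`: `ω ^ n * g.coeff n = g.coeff n`; if `g.coeff n ≠ 0` then `ω ^ n = 1`, `r ∣ n`.
-/

set_option autoImplicit false

open HahnSeries ModularCurve Fermat.Agent.ES.Alg

noncomputable section

namespace Fermat.Agent.S19

theorem rootA_exists_prim (K : Type*) [Field K] [IsAlgClosed K] [CharZero K] (n : ℕ) (hn : 0 < n) :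
    ∃ ζ : K, IsPrimitiveRoot ζ n := by
  have : NeZero (n : K) := ⟨by exact_mod_cast hn.ne'⟩
  obtain ⟨ζ, hζ⟩ := IsAlgClosed.exists_root (Polynomial.cyclotomic n K)
    (Polynomial.degree_cyclotomic_pos n K hn).ne'
  exact ⟨ζ, Polynomial.isRoot_cyclotomic_iff.1 hζ⟩

/-- [S19/B-ROOTA] -/
theorem coeff_eq_zero_of_pow_eq_qExpand {K : Type*} [Field K] [IsAlgClosed K] [CharZero K]
    {r p : ℕ} [NeZero r] (hr : r.Prime) (hp : p.Prime) (hpr : p ≠ r) (g s : LaurentSeries K)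
    (h : g ^ p = qExpand K r s) (n : ℤ) (hn : ¬ (r : ℤ) ∣ n) : g.coeff n = 0 := by
  by_contra hgn
  obtain ⟨ω₀, hω₀⟩ := rootA_exists_prim K r hr.pos
  obtain ⟨ζ, hζ⟩ := rootA_exists_prim K p hp.pos
  let ω : Kˣ := Units.mk0 ω₀ (hω₀.ne_zero hr.ne_zero)
  have hω : IsPrimitiveRoot ω r := IsPrimitiveRoot.coe_units_iff.1 hω₀
  have hωr : ω ^ r = 1 := hω.pow_eq_one
  have hT : (twist ω g) ^ p = g ^ p := by
    rw [← map_pow, h, twist_qExpand r ω hωr]
  have hζ' : IsPrimitiveRoot (HahnSeries.C ζ : LaurentSeries K) p :=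
    hζ.map_of_injective HahnSeries.C_injective
  have hprod := hζ'.pow_sub_pow_eq_prod_sub_mul (twist ω g) g hp.pos
  rw [hT, sub_self] at hprod
  obtain ⟨μ, hμ, hμ0⟩ := Finset.prod_eq_zero_iff.1 hprod.symm
  have hμp : μ ^ p = 1 := ((Polynomial.mem_nthRootsFinset hp.pos 1).1 hμ)
  have : NeZero p := ⟨hp.ne_zero⟩
  obtain ⟨i, -, hi⟩ := hζ'.eq_pow_of_pow_eq_one hμp
  have hTg : twist ω g = HahnSeries.C (ζ ^ i) * g := by
    rw [map_pow, hi]
    exact sub_eq_zero.1 hμ0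
  have hcoeff : ∀ m : ℤ, ((ω ^ m : Kˣ) : K) * g.coeff m = ζ ^ i * g.coeff m := by
    intro m
    rw [← twist_coeff, hTg, HahnSeries.C_mul_eq_smul, HahnSeries.coeff_smul, smul_eq_mul]
  have h1 : ((ω ^ n : Kˣ) : K) = ζ ^ i := mul_right_cancel₀ hgn (hcoeff n)
  have h2 : (ζ ^ i) ^ p = 1 := by rw [← pow_mul, mul_comm, pow_mul, hζ.pow_eq_one, one_pow]
  have h3 : (ζ ^ i) ^ r = 1 := by
    rw [← h1, ← Units.val_pow_eq_pow_val, ← zpow_natCast, ← zpow_mul, mul_comm, zpow_mul, zpow_natCast,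
      hωr, one_zpow, Units.val_one]
  have h4 : ζ ^ i = 1 := by
    have := pow_gcd_eq_one.2 ⟨h2, h3⟩
    rwa [(Nat.coprime_primes hp hr).2 hpr, pow_one] at this
  have h5 : ω ^ n = 1 := Units.ext (by rw [h1, h4, Units.val_one])
  exact hn ((hω.zpow_eq_one_iff_dvd n).1 h5)

end Fermat.Agent.S19
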